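import Mathlib
import Fermat.Agent.LT.T1.Spec
import Fermat.Agent.LT.T1.H868.HaarScale
import Fermat.Agent.LT.T1.H868.Fujisaki

/-!
# Row LT, tower T2, sub-leaf T2.03c.1 `LeafCount`, part A (helper868): lattice points in boxes

OFF-MAIN.  Vocabulary: `LT/H556/A0.lean` (66d3374a), `LT/T1/Spec.lean` (e8ae48d6), byte-identical.
Tools: HAAR-SCALE (`haarScale868`), the boxes `box868` of `LT/T1/H868`.

* `finite_K_in_compact868`: `K ∩ (compact)` is finite.
* `rat_eq_zero_of_mem_box868`: a rational adele in the box of radius `1/2` is `0` (product formula).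
* `RayData868`, `exists_rayData868`: the ray element `a = diag(σ, 1)` of `T1.IsRay`, `σ` an idele with
  `‖σ_w‖ = s` at the infinite places and `σ_v = 1` at the finite places; `adNorm σ = s ^ [K : ℚ]`.
* `packing868`: `#(K ∩ σ E) ≤ C₂ · s ^ [K : ℚ]` for `E` compact, uniformly in `s ≥ s₀ > 0`
  (packing by the translates of the box of radius `1/4`).
* `shrink868`: `{y : y σ ∈ E for some s ≥ s₀}` lies in a fixed compact set.
-/

set_option autoImplicit false
set_option linter.style.haveILetI false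
set_option linter.unusedVariables false
set_option linter.unusedSectionVars false

open IsDedekindDomain NumberField MeasureTheory
open scoped ENNReal NNReal

noncomputable section

namespace Fermat.Agent.LT.T2.H868

open Fermat.Agent.LT.H556.A0
open Fermat.Agent.LT.T1
open Fermat.Agent.LT.T1.H868

variable {K : Type} [Field K] [NumberField K]

/-! ## Rational points in compact sets and in small boxes -/

/-- Finitely many elements of `K` in a compact subset of `𝔸_K`. -/
theorem finite_K_in_compact868 (hAL : AdeleLatticeC K) [T2Space (Adl K)] {W : Set (Adl K)}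
    (hW : IsCompact W) : {ξ : K | algebraMap K (Adl K) ξ ∈ W}.Finite := by
  obtain ⟨hdisc, hclosed, -⟩ := hAL
  haveI := hdisc
  have h1 : IsCompact ((Subtype.val : princ K → Adl K) ⁻¹' W) :=
    hclosed.isClosedEmbedding_subtypeVal.isCompact_preimage hW
  have h2 : ((Subtype.val : princ K → Adl K) ⁻¹' W).Finite := h1.finite_of_discrete
  have h3 : ((princ K : Set (Adl K)) ∩ W).Finite := by
    have : (princ K : Set (Adl K)) ∩ W = Subtype.val '' ((Subtype.val : princ K → Adl K) ⁻¹' W) := by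
      ext a
      constructor
      · rintro ⟨ha1, ha2⟩
        exact ⟨⟨a, ha1⟩, ha2, rfl⟩
      · rintro ⟨b, hb, rfl⟩
        exact ⟨b.2, hb⟩
    rw [this]
    exact h2.image _
  have hinj : Function.Injective fun ξ : K => algebraMap K (Adl K) ξ :=
    NumberField.AdeleRing.algebraMap_injective (𝓞 K) K
  have h4 : {ξ : K | algebraMap K (Adl K) ξ ∈ W}
      = (fun ξ : K => algebraMap K (Adl K) ξ) ⁻¹' ((princ K : Set (Adl K)) ∩ W) := by
    ext ξ
    simp only [Set.mem_ofPred_eq, Set.mem_preimage, Set.mem_inter_iff, SetLike.mem_coe,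
      iff_and_self]
    intro _
    exact ⟨ξ, rfl⟩
  rw [h4]
  exact h3.preimage (hinj.injOn)

/-- A rational adele in the box of radius `1/2` vanishes (product formula). -/
theorem rat_eq_zero_of_mem_box868 (hN : AdNormC K) {ξ : K}
    (h : algebraMap K (Adl K) ξ ∈ box868 K fun _ => 1 / 2) : ξ = 0 := by
  by_contra h0
  have h1 := hN.2.2.1 (Units.mk0 ξ h0)
  have e : ((ratUnit K (Units.mk0 ξ h0) : (Adl K)ˣ) : Adl K) = algebraMap K (Adl K) ξ := rfl
  rw [e] at h1
  unfold adNorm at h1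
  obtain ⟨hinf, hfin⟩ := h
  set x : Adl K := algebraMap K (Adl K) ξ with hx
  have hA0 : 0 ≤ ∏ w : InfinitePlace K, ‖x.1 w‖ ^ w.mult :=
    Finset.prod_nonneg fun w _ => pow_nonneg (norm_nonneg _) _
  have hA1 : ∏ w : InfinitePlace K, ‖x.1 w‖ ^ w.mult
      ≤ (1 / 2 : ℝ) ^ Module.finrank ℚ K := by
    calc ∏ w : InfinitePlace K, ‖x.1 w‖ ^ w.mult
        ≤ ∏ w : InfinitePlace K, (1 / 2 : ℝ) ^ w.mult :=
          Finset.prod_le_prod (fun w _ => pow_nonneg (norm_nonneg _) _)
            fun w _ => pow_le_pow_left₀ (norm_nonneg _) (hinf w) _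
      _ = (1 / 2 : ℝ) ^ Module.finrank ℚ K := by
          rw [Finset.prod_pow_eq_pow_sum, InfinitePlace.sum_mult_eq]
  have hpos : Module.finrank ℚ K ≠ 0 := (Module.finrank_pos (R := ℚ) (M := K)).ne'
  have hA2 : (1 / 2 : ℝ) ^ Module.finrank ℚ K < 1 :=
    pow_lt_one₀ (by norm_num) (by norm_num) hpos
  have hB : 0 ≤ (∏ᶠ v : HeightOneSpectrum (𝓞 K), ‖x.2 v‖) ∧
      (∏ᶠ v : HeightOneSpectrum (𝓞 K), ‖x.2 v‖) ≤ 1 := by
    refine finprod_induction (fun y : ℝ => 0 ≤ y ∧ y ≤ 1) ⟨zero_le_one, le_rfl⟩ ?_ ?_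
    · rintro a b ⟨ha0, ha1⟩ ⟨hb0, hb1⟩
      exact ⟨mul_nonneg ha0 hb0, mul_le_one₀ ha1 hb0 hb1⟩
    · intro v
      refine ⟨norm_nonneg _, ?_⟩
      rw [Valued.toNormedField.norm_le_one_iff]
      exact (HeightOneSpectrum.mem_adicCompletionIntegers _ _ _).1 (hfin v)
  have : (∏ w : InfinitePlace K, ‖x.1 w‖ ^ w.mult)
      * (∏ᶠ v : HeightOneSpectrum (𝓞 K), ‖x.2 v‖) < 1 := by
    calc (∏ w : InfinitePlace K, ‖x.1 w‖ ^ w.mult)
        * (∏ᶠ v : HeightOneSpectrum (𝓞 K), ‖x.2 v‖)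
        ≤ (∏ w : InfinitePlace K, ‖x.1 w‖ ^ w.mult) * 1 :=
          mul_le_mul_of_nonneg_left hB.2 hA0
      _ = ∏ w : InfinitePlace K, ‖x.1 w‖ ^ w.mult := mul_one _
      _ ≤ (1 / 2 : ℝ) ^ Module.finrank ℚ K := hA1
      _ < 1 := hA2
  rw [h1] at this
  exact lt_irrefl _ this

/-- Differences of two points of the box of radius `1/4` lie in the box of radius `1/2`. -/
theorem sub_mem_box868 {a b : Adl K} (ha : a ∈ box868 K fun _ => 1 / 4)
    (hb : b ∈ box868 K fun _ => 1 / 4) : a - b ∈ box868 K fun _ => 1 / 2 := by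
  refine ⟨fun w => ?_, fun v => ?_⟩
  · have e1 : (a - b).1 w = a.1 w - b.1 w := rfl
    rw [e1]
    calc ‖a.1 w - b.1 w‖ ≤ ‖a.1 w‖ + ‖b.1 w‖ := norm_sub_le _ _
      _ ≤ 1 / 4 + 1 / 4 := add_le_add (ha.1 w) (hb.1 w)
      _ = 1 / 2 := by norm_num
  · have e1 : (a - b).2 v = a.2 v - b.2 v := rfl
    rw [e1]
    exact sub_mem (ha.2 v) (hb.2 v)

/-! ## The ray -/

/-- The ray element `a = diag(σ, 1)`: `‖σ_w‖ = s` at the infinite places, `σ_v = 1` at the finite
places. -/
structure RayData868 (a : G K) (s : ℝ) (σ : (Adl K)ˣ) : Prop where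
  mat : (a : Matrix (Fin 2) (Fin 2) (Adl K)) = !![(σ : Adl K), 0; 0, 1]
  norm_inf : ∀ w : InfinitePlace K, ‖(σ : Adl K).1 w‖ = s
  fin : ∀ v : HeightOneSpectrum (𝓞 K), (σ : Adl K).2 v = 1

theorem adl_ext868 {x y : Adl K} (h1 : ∀ w : InfinitePlace K, x.1 w = y.1 w)
    (h2 : ∀ v : HeightOneSpectrum (𝓞 K), x.2 v = y.2 v) : x = y :=
  Prod.ext (funext h1) (RestrictedProduct.ext _ _ h2)

theorem exists_rayData868 {a : G K} {s : ℝ} (hs : 0 < s) (ha : IsRay K a s) :
    ∃ σ : (Adl K)ˣ, RayData868 a s σ := by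
  obtain ⟨hfin, hinf⟩ := ha
  have hf : ∀ (v : HeightOneSpectrum (𝓞 K)) (i j : Fin 2),
      ((a : Matrix (Fin 2) (Fin 2) (Adl K)) i j).2 v
        = (1 : Matrix (Fin 2) (Fin 2) (v.adicCompletion K)) i j := fun v i j =>
    congrFun (congrFun (hfin v) i) j
  have hi : ∀ (w : InfinitePlace K) (i j : Fin 2),
      InfinitePlace.Completion.extensionEmbedding w
        (((a : Matrix (Fin 2) (Fin 2) (Adl K)) i j).1 w)
        = (!![(s : ℂ), 0; 0, 1] : Matrix (Fin 2) (Fin 2) ℂ) i j := fun w i j =>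
    congrFun (congrFun (hinf w) i) j
  have hinj : ∀ w : InfinitePlace K,
      Function.Injective (InfinitePlace.Completion.extensionEmbedding w) := fun w =>
    (InfinitePlace.Completion.extensionEmbedding w).injective
  have h01 : (a : Matrix (Fin 2) (Fin 2) (Adl K)) 0 1 = 0 := by
    refine adl_ext868 (fun w => ?_) (fun v => ?_)
    · apply hinj w
      rw [hi w 0 1]
      show _ = InfinitePlace.Completion.extensionEmbedding w 0
      rw [map_zero]
      rfl
    · rw [hf v 0 1]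
      rfl
  have h10 : (a : Matrix (Fin 2) (Fin 2) (Adl K)) 1 0 = 0 := by
    refine adl_ext868 (fun w => ?_) (fun v => ?_)
    · apply hinj w
      rw [hi w 1 0]
      show _ = InfinitePlace.Completion.extensionEmbedding w 0
      rw [map_zero]
      rfl
    · rw [hf v 1 0]
      rfl
  have h11 : (a : Matrix (Fin 2) (Fin 2) (Adl K)) 1 1 = 1 := by
    refine adl_ext868 (fun w => ?_) (fun v => ?_)
    · apply hinj w
      rw [hi w 1 1]
      show _ = InfinitePlace.Completion.extensionEmbedding w 1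
      rw [map_one]
      rfl
    · rw [hf v 1 1]
      rfl
  have hdet : ((Matrix.GeneralLinearGroup.det a : (Adl K)ˣ) : Adl K)
      = (a : Matrix (Fin 2) (Fin 2) (Adl K)) 0 0 := by
    rw [Matrix.GeneralLinearGroup.val_det_apply, Matrix.det_fin_two, h01, h10, h11]
    ring
  refine ⟨Matrix.GeneralLinearGroup.det a, ?_, fun w => ?_, fun v => ?_⟩
  · rw [hdet]
    have h := Matrix.eta_fin_two (a : Matrix (Fin 2) (Fin 2) (Adl K))
    rw [h01, h10, h11] at h
    exact h
  · rw [hdet]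
    have h := (InfinitePlace.Completion.isometry_extensionEmbedding w).norm_map_of_map_zero
      (map_zero _) (((a : Matrix (Fin 2) (Fin 2) (Adl K)) 0 0).1 w)
    rw [← h, hi w 0 0]
    show ‖(s : ℂ)‖ = s
    rw [Complex.norm_real, Real.norm_eq_abs, abs_of_pos hs]
  · rw [hdet, hf v 0 0]
    rfl

theorem RayData868.isFinUnit {a : G K} {s : ℝ} {σ : (Adl K)ˣ} (h : RayData868 a s σ) :
    IsFinUnit868 K σ := fun v => by
  rw [h.fin v, map_one]

theorem RayData868.adNorm {a : G K} {s : ℝ} {σ : (Adl K)ˣ} (h : RayData868 a s σ) :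
    adNorm K (σ : Adl K) = s ^ Module.finrank ℚ K := by
  rw [adNorm_of_isFinUnit868 K h.isFinUnit]
  simp only [h.norm_inf]
  rw [Finset.prod_pow_eq_pow_sum, InfinitePlace.sum_mult_eq]

theorem RayData868.inv_fin {a : G K} {s : ℝ} {σ : (Adl K)ˣ} (h : RayData868 a s σ)
    (v : HeightOneSpectrum (𝓞 K)) : ((σ⁻¹ : (Adl K)ˣ) : Adl K).2 v = 1 := by
  have := fin_mul_inv868 K σ v
  rw [h.fin v, mul_one] at this
  exact this

theorem RayData868.inv_norm_inf {a : G K} {s : ℝ} {σ : (Adl K)ˣ} (h : RayData868 a s σ)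
    (w : InfinitePlace K) : ‖((σ⁻¹ : (Adl K)ˣ) : Adl K).1 w‖ = s⁻¹ := by
  rw [norm_inf_inv868, h.norm_inf w]

end Fermat.Agent.LT.T2.H868

end
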