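import Mathlib
import Fermat.Agent.LT.T1.Spec
import Fermat.Agent.LT.T2.H868.CountA

/-!
# Row LT, tower T2, sub-leaf T2.03c.1 `LeafCount`, part B (helper868): packing and shrinking

OFF-MAIN.  Vocabulary: `LT/H556/A0.lean` (66d3374a), `LT/T1/Spec.lean` (e8ae48d6), byte-identical.

* `packing868`: for `E ⊆ 𝔸_K` compact and `s₀ > 0` there is `C₂` with
  `#{q ∈ K : q ∈ σ E} ≤ C₂ · s ^ [K : ℚ]` for every ray idele `σ` of parameter `s ≥ s₀`.
  Proof: the translates `q + W`, `W` the box of radius `1/4`, are pairwise disjoint (product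
  formula), lie in `σ (E + W₁)`, `W₁` the box of radius `1 / (4 s₀)`, and
  `μ (σ S) = s ^ [K : ℚ] · μ S` (HAAR-SCALE).
* `shrink868`: for `E` compact and `s₀ > 0` there is a compact `E'` containing every `y` with
  `y σ ∈ E` for some ray idele `σ` of parameter `s ≥ s₀`.
-/

set_option autoImplicit false
set_option linter.style.haveILetI false
set_option linter.unusedVariables false
set_option linter.unusedSectionVars false

open IsDedekindDomain NumberField MeasureTheory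
open scoped ENNReal NNReal

noncomputable section

namespace Fermat.Agent.LT.T2.H868

open Fermat.Agent.LT.H556.A0
open Fermat.Agent.LT.T1
open Fermat.Agent.LT.T1.H868

variable {K : Type} [Field K] [NumberField K]

/-- **Packing.** -/
theorem packing868 (hLC : LocCompC K) (hFD : AddFundDomC K) (hN : AdNormC K)
    {E : Set (Adl K)} (hE : IsCompact E) {s₀ : ℝ} (hs₀ : 0 < s₀) :
    ∃ C₂ : ℝ, 0 ≤ C₂ ∧ ∀ (a : G K) (s : ℝ) (σ : (Adl K)ˣ), RayData868 a s σ → s₀ ≤ s →
      ∀ T : Finset K, (∀ q ∈ T, ∃ e ∈ E, algebraMap K (Adl K) q = (σ : Adl K) * e) →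
        (T.card : ℝ) ≤ C₂ * s ^ Module.finrank ℚ K := by
  letI : MeasurableSpace (Adl K) := borel (Adl K)
  haveI : BorelSpace (Adl K) := ⟨rfl⟩
  have hLC' := hLC
  obtain ⟨⟨hlc, ht2, hsc⟩, -⟩ := hLC
  haveI := hlc
  haveI := ht2
  haveI := hsc
  set μ : Measure (Adl K) := Measure.addHaar with hμ
  obtain ⟨⟨hb0, hb1⟩, hbr⟩ := measure_box868 μ
  set W : Set (Adl K) := box868 K fun _ => 1 / 4 with hW
  set W₁ : Set (Adl K) := box868 K fun _ => 1 / (4 * s₀) with hW₁
  have hWc : IsCompact W := isCompact_box868 K _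
  have hW₁c : IsCompact W₁ := isCompact_box868 K _
  set S₁ : Set (Adl K) := (fun p : Adl K × Adl K => p.1 + p.2) '' (E ×ˢ W₁) with hS₁
  have hS₁c : IsCompact S₁ := (hE.prod hW₁c).image (continuous_fst.add continuous_snd)
  have hWμ : μ W = ENNReal.ofReal (∏ w : InfinitePlace K, (1 / 4 : ℝ) ^ w.mult)
      * μ (box868 K fun _ => 1) := hbr _ fun _ => by norm_num
  have hW0 : μ W ≠ 0 := by
    rw [hWμ]
    refine mul_ne_zero ?_ hb0.ne'
    rw [Ne, ENNReal.ofReal_eq_zero, not_le]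
    exact Finset.prod_pos fun w _ => by positivity
  have hW1 : μ W ≠ ⊤ := by
    rw [hWμ]
    exact ENNReal.mul_ne_top ENNReal.ofReal_ne_top hb1.ne
  have hS1 : μ S₁ ≠ ⊤ := hS₁c.measure_lt_top.ne
  refine ⟨(μ S₁).toReal / (μ W).toReal,
    div_nonneg ENNReal.toReal_nonneg ENNReal.toReal_nonneg, ?_⟩
  intro a s σ hσ hs T hT
  have hs0 : 0 < s := lt_of_lt_of_le hs₀ hs
  -- the translates of the small box
  set f : K → Set (Adl K) := fun q => (fun y : Adl K => algebraMap K (Adl K) q + y) '' W with hf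
  have hdisj : (T : Set K).PairwiseDisjoint f := by
    intro q _ q' _ hne
    rw [Function.onFun, Set.disjoint_left]
    rintro x ⟨w, hw, rfl⟩ ⟨w', hw', h⟩
    apply hne
    have h' : algebraMap K (Adl K) q' + w' = algebraMap K (Adl K) q + w := h
    have hsub : algebraMap K (Adl K) (q - q') = w' - w := by
      rw [map_sub]
      linear_combination (-1 : Adl K) * h'
    have := rat_eq_zero_of_mem_box868 hN (ξ := q - q')
      (by rw [hsub]; exact sub_mem_box868 hw' hw)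
    exact sub_eq_zero.1 this
  have hmeas : ∀ q ∈ T, MeasurableSet (f q) := fun q _ =>
    (hWc.image (continuous_const.add continuous_id)).isClosed.measurableSet
  have hμf : ∀ q ∈ T, μ (f q) = μ W := fun q _ => by
    show μ ((fun y : Adl K => algebraMap K (Adl K) q + y) '' W) = μ W
    rw [Set.image_add_left]
    exact measure_preimage_add μ _ W
  have hsub : (⋃ q ∈ T, f q) ⊆ (fun y : Adl K => (σ : Adl K) * y) '' S₁ := by
    intro x hx
    simp only [Set.mem_iUnion] at hx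
    obtain ⟨q, hq, w, hw, rfl⟩ := hx
    obtain ⟨e, he, hqe⟩ := hT q hq
    refine ⟨e + ((σ⁻¹ : (Adl K)ˣ) : Adl K) * w,
      ⟨(e, ((σ⁻¹ : (Adl K)ˣ) : Adl K) * w), ⟨he, ?_⟩, rfl⟩, ?_⟩
    · refine ⟨fun w₀ => ?_, fun v => ?_⟩
      · have e1 : (((σ⁻¹ : (Adl K)ˣ) : Adl K) * w).1 w₀
            = ((σ⁻¹ : (Adl K)ˣ) : Adl K).1 w₀ * w.1 w₀ := rfl
        rw [e1, norm_mul, hσ.inv_norm_inf w₀]
        calc s⁻¹ * ‖w.1 w₀‖ ≤ s⁻¹ * (1 / 4) :=
              mul_le_mul_of_nonneg_left (hw.1 w₀) (inv_nonneg.2 hs0.le)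
          _ ≤ s₀⁻¹ * (1 / 4) :=
              mul_le_mul_of_nonneg_right (inv_anti₀ hs₀ hs) (by norm_num)
          _ = 1 / (4 * s₀) := by
              field_simp
      · have e1 : (((σ⁻¹ : (Adl K)ˣ) : Adl K) * w).2 v
            = ((σ⁻¹ : (Adl K)ˣ) : Adl K).2 v * w.2 v := rfl
        rw [e1, hσ.inv_fin v, one_mul]
        exact hw.2 v
    · show (σ : Adl K) * (e + ((σ⁻¹ : (Adl K)ˣ) : Adl K) * w) = algebraMap K (Adl K) q + w
      rw [mul_add, ← mul_assoc, Units.mul_inv, one_mul, hqe]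
  have hmain : (T.card : ℝ≥0∞) * μ W ≤ ENNReal.ofReal (s ^ Module.finrank ℚ K) * μ S₁ := by
    calc (T.card : ℝ≥0∞) * μ W = ∑ q ∈ T, μ (f q) := by
          rw [Finset.sum_congr rfl hμf, Finset.sum_const, nsmul_eq_mul]
      _ = μ (⋃ q ∈ T, f q) := (measure_biUnion_finset hdisj hmeas).symm
      _ ≤ μ ((fun y : Adl K => (σ : Adl K) * y) '' S₁) := measure_mono hsub
      _ = ENNReal.ofReal (s ^ Module.finrank ℚ K) * μ S₁ := by
          rw [haarScale868 hLC' hFD hN μ inferInstance σ S₁, hσ.adNorm]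
  -- to the reals
  have h2 := ENNReal.toReal_mono (ENNReal.mul_ne_top ENNReal.ofReal_ne_top hS1) hmain
  rw [ENNReal.toReal_mul, ENNReal.toReal_mul, ENNReal.toReal_natCast,
    ENNReal.toReal_ofReal (pow_nonneg hs0.le _)] at h2
  have hWpos : 0 < (μ W).toReal := ENNReal.toReal_pos hW0 hW1
  rw [div_mul_eq_mul_div, le_div_iff₀ hWpos]
  linarith [h2]

/-- **Shrinking.** -/
theorem shrink868 {E : Set (Adl K)} (hE : IsCompact E) {s₀ : ℝ} (hs₀ : 0 < s₀) :
    ∃ E' : Set (Adl K), IsCompact E' ∧ ∀ (a : G K) (s : ℝ) (σ : (Adl K)ˣ), RayData868 a s σ →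
      s₀ ≤ s → ∀ y : Adl K, y * (σ : Adl K) ∈ E → y ∈ E' := by
  have hbd : ∀ w : InfinitePlace K, ∃ R : ℝ, ∀ e ∈ E, ‖e.1 w‖ ≤ R := fun w => by
    have hcont : Continuous fun e : Adl K => ‖e.1 w‖ :=
      continuous_norm.comp ((continuous_apply w).comp continuous_fst)
    obtain ⟨R, hR⟩ := (hE.image hcont).bddAbove
    exact ⟨R, fun e he => hR ⟨e, he, rfl⟩⟩
  choose R hR using hbd
  set E'P : Set (((w : InfinitePlace K) → w.Completion) × FiniteAdeleRing (𝓞 K) K) :=
    (Set.univ.pi fun w : InfinitePlace K => Metric.closedBall (0 : w.Completion) (R w / s₀))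
      ×ˢ ((fun e : Adl K => e.2) '' E) with hE'P
  have hc : IsCompact E'P :=
    (isCompact_univ_pi fun w => isCompact_closedBall_inf868 K w _).prod
      (hE.image continuous_snd)
  refine ⟨E'P, hc, fun a s σ hσ hs y hy => ?_⟩
  have hs0 : 0 < s := lt_of_lt_of_le hs₀ hs
  refine ⟨fun w _ => ?_, ⟨y * (σ : Adl K), hy, ?_⟩⟩
  · rw [mem_closedBall_zero_iff]
    have e1 : (y * (σ : Adl K)).1 w = y.1 w * (σ : Adl K).1 w := rfl
    have h1 := hR w _ hy
    rw [e1, norm_mul, hσ.norm_inf w] at h1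
    have hR0 : 0 ≤ R w := le_trans (mul_nonneg (norm_nonneg _) hs0.le) h1
    calc ‖y.1 w‖ = ‖y.1 w‖ * s / s := by field_simp
      _ ≤ R w / s := div_le_div_of_nonneg_right h1 hs0.le
      _ ≤ R w / s₀ := div_le_div_of_nonneg_left hR0 hs₀ hs
  · show (y * (σ : Adl K)).2 = y.2
    refine RestrictedProduct.ext _ _ fun v => ?_
    show y.2 v * (σ : Adl K).2 v = y.2 v
    rw [hσ.fin v, mul_one]

end Fermat.Agent.LT.T2.H868

end
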