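import Mathlib
import Fermat.Agent.LT.T1.Spec
import Fermat.Agent.LT.T2.H868.CountA
import Fermat.Agent.LT.T2.H868.CountB

/-!
# Row LT, tower T2, sub-leaf T2.03c.1 `LeafCount`, part C (helper868): THE COUNT

OFF-MAIN.  Vocabulary: `LT/H556/A0.lean` (66d3374a), `LT/T1/Spec.lean` (e8ae48d6), byte-identical.

`countCore868 : T1Out K → ∀ C compact ⊆ GL₂(𝔸_K), ∃ B c, 0 < c ∧ ∀ x t, HasHeight x t → c ≤ t →
  ∀ T : Finset (GL₂(K)), (∀ δ ∈ T, ∃ ω ∈ C, δ x = x ω) → #T ≤ B t`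
(= `T2.H767.CountC K`, stated here in the vocabulary of T1 only).

Proof.  `T1.SiegelCompactC` with `c = 1`: `x = β z a ω₀`.  For `δ' = β⁻¹ δ β`:
`δ' a = a (ω₀ ω ω₀⁻¹)`, so the entries `p, q, r, u` of `δ'` satisfy `p = c₀₀`, `q = σ c₀₁`,
`r σ = c₁₀`, `u = c₁₁` with `c_ij` in the compact entry sets of `Ω C Ω⁻¹`.  Hence `p, u` lie in
fixed finite sets, `r` in a fixed finite set (`shrink868`), and there are at most
`C₂ s ^ [K : ℚ] ≤ C₂ M t` possible `q` (`packing868`).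
-/

set_option autoImplicit false
set_option linter.style.haveILetI false
set_option linter.unusedVariables false
set_option linter.unusedSectionVars false

open IsDedekindDomain NumberField MeasureTheory
open scoped ENNReal NNReal

noncomputable section

namespace Fermat.Agent.LT.T2.H868

open Fermat.Agent.LT.H556.A0
open Fermat.Agent.LT.T1
open Fermat.Agent.LT.T1.H868

variable {K : Type} [Field K] [NumberField K]

/-! ## Group theory -/

theorem isCentral_comm868 {z : G K} (hz : IsCentral K z) (g : G K) : z * g = g * z := by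
  obtain ⟨c, hc⟩ := hz
  apply Units.ext
  rw [Units.val_mul, Units.val_mul, hc]
  ext i j
  rw [Matrix.diagonal_mul, Matrix.mul_diagonal, mul_comm]

theorem conj_identity_gen868 {H : Type*} [Group H] {z b d a ω₀ ω x : H}
    (hz : ∀ g : H, z * g = g * z)
    (hx : x = b * z * a * ω₀) (h : d * x = x * ω) :
    b⁻¹ * d * b * a = a * (ω₀ * ω * ω₀⁻¹) := by
  subst hx
  have h1 : b * z * a * ω₀ = z * (b * a * ω₀) := by
    rw [← hz b]
    simp only [mul_assoc]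
  rw [h1] at h
  have h2 : d * (z * (b * a * ω₀)) = z * (d * (b * a * ω₀)) := by
    rw [← mul_assoc, ← hz d, mul_assoc]
  have h4 : z * (d * (b * a * ω₀)) = z * (b * a * ω₀ * ω) := by
    rw [← h2, h, mul_assoc]
  have h3 : d * (b * a * ω₀) = b * a * ω₀ * ω := mul_left_cancel h4
  calc b⁻¹ * d * b * a = b⁻¹ * (d * (b * a * ω₀)) * ω₀⁻¹ := by group
    _ = b⁻¹ * (b * a * ω₀ * ω) * ω₀⁻¹ := by rw [h3]
    _ = a * (ω₀ * ω * ω₀⁻¹) := by group

theorem conj_identity868 {z b d a ω₀ ω x : G K} (hz : ∀ g : G K, z * g = g * z)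
    (hx : x = b * z * a * ω₀) (h : d * x = x * ω) :
    b⁻¹ * d * b * a = a * (ω₀ * ω * ω₀⁻¹) :=
  conj_identity_gen868 hz hx h

/-! ## The entries -/

/-- The set of `(i, j)`-entries of the elements of `Ω C Ω⁻¹`. -/
def entrySet868 (Ω C : Set (G K)) (i j : Fin 2) : Set (Adl K) :=
  (fun p : G K × G K × G K =>
      ((p.1 * p.2.1 * p.2.2⁻¹ : G K) : Matrix (Fin 2) (Fin 2) (Adl K)) i j) '' (Ω ×ˢ C ×ˢ Ω)

theorem isCompact_entrySet868 {Ω C : Set (G K)} (hΩ : IsCompact Ω) (hC : IsCompact C)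
    (i j : Fin 2) : IsCompact (entrySet868 Ω C i j) := by
  refine (hΩ.prod (hC.prod hΩ)).image ?_
  have h1 : Continuous fun p : G K × G K × G K => (p.1 * p.2.1 * p.2.2⁻¹ : G K) :=
    (continuous_fst.mul (continuous_fst.comp continuous_snd)).mul
      (continuous_snd.comp continuous_snd).inv
  exact (Units.continuous_val.comp h1).matrix_elem i j

theorem mem_entrySet868 {Ω C : Set (G K)} {ω₀ ω : G K} (h0 : ω₀ ∈ Ω) (h : ω ∈ C) (i j : Fin 2) :
    ((ω₀ * ω * ω₀⁻¹ : G K) : Matrix (Fin 2) (Fin 2) (Adl K)) i j ∈ entrySet868 Ω C i j :=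
  ⟨(ω₀, ω, ω₀), ⟨h0, h, h0⟩, rfl⟩

theorem entries_of_conj868 {a : G K} {s : ℝ} {σ : (Adl K)ˣ} (hσ : RayData868 a s σ)
    (δ' : GL (Fin 2) K) (c₁ : G K) (h : ratG K δ' * a = a * c₁) :
    algebraMap K (Adl K) ((δ' : Matrix (Fin 2) (Fin 2) K) 0 0)
        = (c₁ : Matrix (Fin 2) (Fin 2) (Adl K)) 0 0 ∧
      algebraMap K (Adl K) ((δ' : Matrix (Fin 2) (Fin 2) K) 0 1)
        = (σ : Adl K) * (c₁ : Matrix (Fin 2) (Fin 2) (Adl K)) 0 1 ∧
      algebraMap K (Adl K) ((δ' : Matrix (Fin 2) (Fin 2) K) 1 0) * (σ : Adl K)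
        = (c₁ : Matrix (Fin 2) (Fin 2) (Adl K)) 1 0 ∧
      algebraMap K (Adl K) ((δ' : Matrix (Fin 2) (Fin 2) K) 1 1)
        = (c₁ : Matrix (Fin 2) (Fin 2) (Adl K)) 1 1 := by
  have hm : ((ratG K δ' : G K) : Matrix (Fin 2) (Fin 2) (Adl K))
      * (a : Matrix (Fin 2) (Fin 2) (Adl K))
      = (a : Matrix (Fin 2) (Fin 2) (Adl K)) * (c₁ : Matrix (Fin 2) (Fin 2) (Adl K)) := by
    rw [← Units.val_mul, ← Units.val_mul, h]
  have hD : ∀ i j, ((ratG K δ' : G K) : Matrix (Fin 2) (Fin 2) (Adl K)) i j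
      = algebraMap K (Adl K) ((δ' : Matrix (Fin 2) (Fin 2) K) i j) := fun i j =>
    Matrix.GeneralLinearGroup.map_apply _ i j δ'
  rw [hσ.mat] at hm
  have e00 := congrFun (congrFun hm 0) 0
  have e01 := congrFun (congrFun hm 0) 1
  have e10 := congrFun (congrFun hm 1) 0
  have e11 := congrFun (congrFun hm 1) 1
  simp only [Matrix.mul_apply, Fin.sum_univ_two, hD, Matrix.of_apply, Matrix.cons_val_zero,
    Matrix.cons_val_one, Matrix.cons_val', Matrix.cons_val_fin_one, mul_zero, zero_mul,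
    add_zero, zero_add, mul_one, one_mul] at e00 e01 e10 e11
  refine ⟨?_, e01, e10, e11⟩
  rw [mul_comm] at e00
  exact (Units.mul_right_inj σ).1 e00

/-! ## THE COUNT -/

/-- **T2.03c.1, THE COUNT** (body of `T2.H767.CountC K`). -/
theorem countCore868 (hT : T1Out K) :
    ∀ C : Set (G K), IsCompact C →
      ∃ B c : ℝ, 0 < c ∧
        ∀ (x : G K) (t : ℝ), HasHeight K x t → c ≤ t →
          ∀ T : Finset (GL (Fin 2) K),
            (∀ δ ∈ T, ∃ ω ∈ C, ratG K δ * x = x * ω) → (T.card : ℝ) ≤ B * t := by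
  classical
  intro C hC
  have hLC := hT.locComp
  obtain ⟨⟨hlc, ht2, hsc⟩, hlcG, ht2G, hscG⟩ := hLC
  haveI := hlc
  haveI := ht2
  haveI := hsc
  obtain ⟨Ω, m, M, hΩ, hm, hmM, hS⟩ := hT.siegelCompact 1 one_pos
  set s₀ : ℝ := min 1 m with hs₀
  have hs₀0 : 0 < s₀ := lt_min one_pos hm
  -- the four entry sets
  have hE := fun i j => isCompact_entrySet868 hΩ hC i j
  have hP := finite_K_in_compact868 hT.adeleLattice (hE 0 0)
  have hU := finite_K_in_compact868 hT.adeleLattice (hE 1 1)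
  obtain ⟨E', hE'c, hE'⟩ := shrink868 (hE 1 0) hs₀0
  have hR := finite_K_in_compact868 hT.adeleLattice hE'c
  obtain ⟨C₂, hC₂, hpack⟩ := packing868 hT.locComp hT.addFundDom hT.adNorm (hE 0 1) hs₀0
  set P₀ : Finset K := hP.toFinset with hP₀
  set U₀ : Finset K := hU.toFinset with hU₀
  set R₀ : Finset K := hR.toFinset with hR₀
  have hM0 : 0 < M := lt_of_lt_of_le hm hmM
  refine ⟨(P₀.card : ℝ) * (R₀.card : ℝ) * (U₀.card : ℝ) * C₂ * M, 1, one_pos, ?_⟩
  intro x t hx ht T hTx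
  have ht0 : 0 < t := lt_of_lt_of_le one_pos ht
  obtain ⟨β, z, a, ω₀, s, hβ, hz, hs, ha, hω₀, hxe, hms, hsM⟩ := hS x t hx ht
  -- `s ≥ s₀`
  have hn : Module.finrank ℚ K ≠ 0 := (Module.finrank_pos (R := ℚ) (M := K)).ne'
  have hss₀ : s₀ ≤ s := by
    by_cases h1 : 1 ≤ s
    · exact (min_le_left _ _).trans h1
    · have h1' : s ≤ 1 := (not_le.1 h1).le
      have h2 : s ^ Module.finrank ℚ K ≤ s := pow_le_of_le_one hs.le h1' hn
      have h3 : m ≤ m * t := le_mul_of_one_le_right hm.le ht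
      exact (min_le_right _ _).trans (h3.trans (hms.trans h2))
  obtain ⟨σ, hσ⟩ := exists_rayData868 hs ha
  -- the conjugates
  set φ : GL (Fin 2) K → GL (Fin 2) K := fun δ => β⁻¹ * δ * β with hφ
  have hkey : ∀ δ ∈ T, ∃ c₁ : G K, ratG K (φ δ) * a = a * c₁ ∧
      ∀ i j, (c₁ : Matrix (Fin 2) (Fin 2) (Adl K)) i j ∈ entrySet868 Ω C i j := by
    intro δ hδ
    obtain ⟨ω, hω, h⟩ := hTx δ hδ
    refine ⟨ω₀ * ω * ω₀⁻¹, ?_, fun i j => mem_entrySet868 hω₀ hω i j⟩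
    have := conj_identity868 (isCentral_comm868 hz) hxe h
    rw [← this]
    simp only [hφ, map_mul, map_inv]
  -- the four entries
  set ψ : GL (Fin 2) K → K × K × K × K := fun δ =>
    (((φ δ : GL (Fin 2) K) : Matrix (Fin 2) (Fin 2) K) 0 0,
      ((φ δ : GL (Fin 2) K) : Matrix (Fin 2) (Fin 2) K) 0 1,
      ((φ δ : GL (Fin 2) K) : Matrix (Fin 2) (Fin 2) K) 1 0,
      ((φ δ : GL (Fin 2) K) : Matrix (Fin 2) (Fin 2) K) 1 1) with hψ
  have hψinj : Function.Injective ψ := by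
    intro δ₁ δ₂ h
    have h' : φ δ₁ = φ δ₂ := by
      apply Units.ext
      rw [Matrix.eta_fin_two ((φ δ₁ : GL (Fin 2) K) : Matrix (Fin 2) (Fin 2) K),
        Matrix.eta_fin_two ((φ δ₂ : GL (Fin 2) K) : Matrix (Fin 2) (Fin 2) K)]
      have h00 := congrArg (fun p : K × K × K × K => p.1) h
      have h01 := congrArg (fun p : K × K × K × K => p.2.1) h
      have h10 := congrArg (fun p : K × K × K × K => p.2.2.1) h
      have h11 := congrArg (fun p : K × K × K × K => p.2.2.2) h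
      simp only [hψ] at h00 h01 h10 h11
      rw [h00, h01, h10, h11]
    simp only [hφ] at h'
    exact mul_left_cancel (mul_right_cancel h')
  set Tq : Finset K := T.image fun δ => ((φ δ : GL (Fin 2) K) : Matrix (Fin 2) (Fin 2) K) 0 1
    with hTq
  have hTqcard : (Tq.card : ℝ) ≤ C₂ * s ^ Module.finrank ℚ K := by
    refine hpack a s σ hσ hss₀ Tq fun q hq => ?_
    rw [hTq, Finset.mem_image] at hq
    obtain ⟨δ, hδ, rfl⟩ := hq
    obtain ⟨c₁, hc₁, hmem⟩ := hkey δ hδ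
    exact ⟨_, hmem 0 1, (entries_of_conj868 hσ (φ δ) c₁ hc₁).2.1⟩
  have hmaps : Set.MapsTo ψ (T : Set (GL (Fin 2) K))
      ((P₀ ×ˢ Tq ×ˢ R₀ ×ˢ U₀ : Finset (K × K × K × K)) : Set (K × K × K × K)) := by
    intro δ hδ
    have hδ' : δ ∈ T := hδ
    obtain ⟨c₁, hc₁, hmem⟩ := hkey δ hδ'
    obtain ⟨e00, e01, e10, e11⟩ := entries_of_conj868 hσ (φ δ) c₁ hc₁
    rw [Finset.mem_coe, Finset.mem_product, Finset.mem_product, Finset.mem_product]
    refine ⟨?_, ?_, ?_, ?_⟩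
    · rw [hP₀, Set.Finite.mem_toFinset]
      change algebraMap K (Adl K) (((φ δ : GL (Fin 2) K) : Matrix (Fin 2) (Fin 2) K) 0 0)
        ∈ entrySet868 Ω C 0 0
      rw [e00]
      exact hmem 0 0
    · change ((φ δ : GL (Fin 2) K) : Matrix (Fin 2) (Fin 2) K) 0 1 ∈ Tq
      rw [hTq]
      exact Finset.mem_image_of_mem
        (fun δ => ((φ δ : GL (Fin 2) K) : Matrix (Fin 2) (Fin 2) K) 0 1) hδ'
    · rw [hR₀, Set.Finite.mem_toFinset]
      change algebraMap K (Adl K) (((φ δ : GL (Fin 2) K) : Matrix (Fin 2) (Fin 2) K) 1 0) ∈ E'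
      refine hE' a s σ hσ hss₀ _ ?_
      rw [e10]
      exact hmem 1 0
    · rw [hU₀, Set.Finite.mem_toFinset]
      change algebraMap K (Adl K) (((φ δ : GL (Fin 2) K) : Matrix (Fin 2) (Fin 2) K) 1 1)
        ∈ entrySet868 Ω C 1 1
      rw [e11]
      exact hmem 1 1
  have hcard := Finset.card_le_card_of_injOn ψ hmaps hψinj.injOn
  rw [Finset.card_product, Finset.card_product, Finset.card_product] at hcard
  have hcardR : (T.card : ℝ)
      ≤ (P₀.card : ℝ) * ((Tq.card : ℝ) * ((R₀.card : ℝ) * (U₀.card : ℝ))) := by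
    exact_mod_cast hcard
  have hq2 : (Tq.card : ℝ) ≤ C₂ * (M * t) :=
    hTqcard.trans (mul_le_mul_of_nonneg_left hsM hC₂)
  calc (T.card : ℝ) ≤ (P₀.card : ℝ) * ((Tq.card : ℝ) * ((R₀.card : ℝ) * (U₀.card : ℝ))) :=
        hcardR
    _ ≤ (P₀.card : ℝ) * ((C₂ * (M * t)) * ((R₀.card : ℝ) * (U₀.card : ℝ))) := by
        gcongr
    _ = (P₀.card : ℝ) * (R₀.card : ℝ) * (U₀.card : ℝ) * C₂ * M * t := by ring

end Fermat.Agent.LT.T2.H868

end
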