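import Mathlib
import Fermat.Agent.LT.H556.A0
import Fermat.Agent.LT.T1.Spec
import Fermat.Agent.LT.T2.Spec
import Fermat.Agent.LT.T2.H386.GPSSpec
import Fermat.Agent.LT.T2.H767.LocalL2Spec
import Fermat.Agent.LT.T2.H868.CountC

/-!
# Row LT, tower T2, sub-leaf T2.03c.1 `LeafCount` (helper868, spare / second proof)

OFF-MAIN.  `leafCount868 K : T2.H767.LeafCount K` VERBATIM against
`LT/T2/H767/LocalL2Spec.lean` (50e6aa79, helper767@74f29da2e), on `LT/T1/Spec.lean` (e8ae48d6),
`LT/T2/Spec.lean` v3 (b934629a), `LT/T2/H386/GPSSpec.lean` (fb5aa9e8), `LT/H556/A0.lean`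
(66d3374a), byte-identical copies.  The proof is `countCore868` (`CountC.lean`), which uses of
`T1Out K` only `locComp`, `adeleLattice`, `addFundDom`, `adNorm`, `siegelCompact`.
-/

set_option autoImplicit false

open IsDedekindDomain NumberField MeasureTheory

noncomputable section

namespace Fermat.Agent.LT.T2.H868

open Fermat.Agent.LT.H556.A0

/-- **T2.03c.1** THE COUNT. -/
theorem countC868 (K : Type) [Field K] [NumberField K] (hT : T1.T1Out K) : H767.CountC K :=
  countCore868 hT

/-- **T2.03c.1** `LeafCount`. -/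
theorem leafCount868 (K : Type) [Field K] [NumberField K] : H767.LeafCount K :=
  fun hT => countC868 K hT

example (K : Type) [Field K] [NumberField K] : T1.T1Out K → H767.CountC K := leafCount868 K

end Fermat.Agent.LT.T2.H868

end
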